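/-
COPY (namespace renamed) of helper9130 `Fermat/Agent/S25/ATLAS/Closed9130.lean` for the DIV leaf GoodMem (helper6251).
S25 (Jacobian), package ATLAS (route A: A5), lemma (Closed) of notes/S25/S25_route.md §2.4 (helper9130).

Part 1 (Mathlib-only): invertibility of modules is Zariski-local
(`invertible_of_localizationSpan`, `invertible_of_cover₂`, `invertible_localizedModule`).

Part 2 (on `Core.TwoChart`): for an ideal `I ⊆ B₁` with `B₁ ⧸ I` finite over `R`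
(the divisor `D = V(I)` is finite over the base), the ideal `𝔞₂ = r₂⁻¹(I B₁₂)` on the second
chart satisfies
* `exists_monic_aeval_mem`: Cayley-Hamilton, `χ(f) ∈ I` for a monic `χ`;
* `aeval_reverse_mem_ideal₂`, `exists_mem_ideal₂_eq_one_add`: `u(g) = g^n χ(1/g) ∈ 𝔞₂`, `u ≡ 1 mod g`;
* `ideal₂_sup_span_g`: `𝔞₂ + (g) = ⊤` (the divisor does not meet `V(g)`: it is closed);
* `map_ideal₂`: `𝔞₂ B₁₂ = I B₁₂` (so `(I, 𝔞₂)` is an ideal datum);
* `quotient_ideal₂_bijective`: `B₂ ⧸ 𝔞₂ ≃ B₁₂ ⧸ I B₁₂`;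
* `invertible_ideal₂`: `𝔞₂` is an invertible `B₂`-module if `I` is an invertible `B₁`-module.
-/
import Fermat.Agent.S25.Core

set_option autoImplicit false

universe u v

namespace Fermat.Agent.S25.ATLAS.DIV.GoodMem.H6251.Closed

open TensorProduct Module

/-! ### Part 1: invertibility is Zariski-local -/

section LocalCriterion

variable {R : Type u} [CommRing R]

/-- The contraction `Nᵛ ⊗[R] N → A` for an `A`-module `N`, tensor product over the base `R`. -/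
noncomputable def contractOver (A : Type*) [CommRing A] [Algebra R A] (N : Type*) [AddCommGroup N]
    [Module R N] [Module A N] [IsScalarTower R A N] : Dual A N ⊗[R] N →ₗ[R] A :=
  TensorProduct.lift (LinearMap.mk₂ R (fun (φ : Dual A N) (n : N) => φ n)
    (fun _ _ _ => rfl) (fun _ _ _ => rfl) (fun φ n₁ n₂ => map_add φ n₁ n₂)
    (fun c φ n => by
      rw [← algebraMap_smul A c n, map_smul, algebraMap_smul]))

@[simp] lemma contractOver_tmul (A : Type*) [CommRing A] [Algebra R A] (N : Type*) [AddCommGroup N]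
    [Module R N] [Module A N] [IsScalarTower R A N] (φ : Dual A N) (n : N) :
    contractOver A N (φ ⊗ₜ[R] n) = φ n := rfl

/-- Over a localization, the contraction over the base is bijective for an invertible module. -/
lemma contractOver_bijective (S : Submonoid R) (A : Type*) [CommRing A] [Algebra R A]
    [IsLocalization S A] (N : Type*) [AddCommGroup N]
    [Module R N] [Module A N] [IsScalarTower R A N] [Module.Invertible A N] :
    Function.Bijective (contractOver (R := R) A N) := by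
  have h1 : Function.Bijective (contractLeft A N) := Module.Invertible.bijective
  have h2 : Function.Bijective (IsLocalization.moduleTensorEquiv S A (Dual A N) N).symm :=
    (IsLocalization.moduleTensorEquiv S A (Dual A N) N).symm.bijective
  have : (contractOver (R := R) A N : Dual A N ⊗[R] N → A)
      = (contractLeft A N) ∘ (IsLocalization.moduleTensorEquiv S A (Dual A N) N).symm := by
    funext x
    induction x using TensorProduct.induction_on with
    | zero => simp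
    | tmul φ n =>
      change φ n = contractLeft A N (φ ⊗ₜ[A] n)
      rw [contractLeft_apply]
    | add x y hx hy =>
      simp only [map_add, Function.comp_apply] at hx hy ⊢
      rw [hx, hy]
  rw [this]
  exact h1.comp h2

variable {M : Type v} [AddCommGroup M] [Module R M]

/-- **Invertibility is Zariski-local**: if the localizations of `M` away from the elements of a
set generating the unit ideal are invertible, then `M` is invertible. -/
theorem invertible_of_localizationSpan (s : Set R) (hs : Ideal.span s = ⊤)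
    (H : ∀ r : s, Module.Invertible (Localization.Away r.1) (LocalizedModule.Away r.1 M)) :
    Module.Invertible R M := by
  have hfp : Module.FinitePresentation R M :=
    Module.FinitePresentation.of_localizationSpan s hs (fun r => by
      have := H r
      exact Module.finitePresentation_of_projective _ _)
  refine ⟨?_⟩
  let fM : ∀ r : s, M →ₗ[R] LocalizedModule.Away r.1 M := fun r =>
    LocalizedModule.mkLinearMap (Submonoid.powers r.1) M
  let fD : ∀ r : s, Dual R M →ₗ[R] Dual (Localization.Away r.1) (LocalizedModule.Away r.1 M) :=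
    fun r => IsLocalizedModule.mapExtendScalars (Submonoid.powers r.1) (fM r)
      (Algebra.linearMap R (Localization.Away r.1)) (Localization.Away r.1)
  refine bijective_of_isLocalized_span s hs
    (fun r => Dual (Localization.Away r.1) (LocalizedModule.Away r.1 M) ⊗[R]
      LocalizedModule.Away r.1 M)
    (fun r => TensorProduct.map (fD r) (fM r))
    (fun r => Localization.Away r.1) (fun r => Algebra.linearMap R (Localization.Away r.1))
    (contractLeft R M) (fun r => ?_)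
  have := H r
  have key : IsLocalizedModule.map (Submonoid.powers r.1) (TensorProduct.map (fD r) (fM r))
      (Algebra.linearMap R (Localization.Away r.1)) (contractLeft R M)
      = contractOver (Localization.Away r.1) (LocalizedModule.Away r.1 M) := by
    apply IsLocalizedModule.linearMap_ext (Submonoid.powers r.1) (TensorProduct.map (fD r) (fM r))
      (Algebra.linearMap R (Localization.Away r.1))
    rw [IsLocalizedModule.map_comp]
    ext φ m
    change algebraMap R (Localization.Away r.1) (contractLeft R M (φ ⊗ₜ[R] m))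
      = contractOver (Localization.Away r.1) (LocalizedModule.Away r.1 M) ((fD r φ) ⊗ₜ[R] (fM r m))
    rw [contractOver_tmul, contractLeft_apply]
    change _ = (IsLocalizedModule.mapExtendScalars (Submonoid.powers r.1) (fM r)
      (Algebra.linearMap R (Localization.Away r.1)) (Localization.Away r.1) φ) (fM r m)
    rw [IsLocalizedModule.mapExtendScalars_apply_apply, IsLocalizedModule.map_apply]
    rfl
  rw [key]
  exact contractOver_bijective (Submonoid.powers r.1) _ _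

/-- Two-element version of `invertible_of_localizationSpan`. -/
theorem invertible_of_cover₂ {a b : R} (hab : Ideal.span ({a, b} : Set R) = ⊤)
    (Ha : Module.Invertible (Localization.Away a) (LocalizedModule.Away a M))
    (Hb : Module.Invertible (Localization.Away b) (LocalizedModule.Away b M)) :
    Module.Invertible R M := by
  refine invertible_of_localizationSpan {a, b} hab ?_
  rintro ⟨r, hr⟩
  rcases hr with h | h
  · subst h; exact Ha
  · have h' : r = b := h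
    subst h'; exact Hb

/-- Transport of invertibility from any model of the localization to the standard one. -/
lemma invertible_localizedModule (S : Submonoid R) (A : Type*) [CommRing A] [Algebra R A]
    [IsLocalization S A] (N : Type*) [AddCommGroup N] [Module R N] [Module A N]
    [IsScalarTower R A N] (f : M →ₗ[R] N) [IsLocalizedModule S f] [Module.Invertible A N] :
    Module.Invertible (Localization S) (LocalizedModule S M) := by
  have h1 : Module.Invertible A (A ⊗[R] M) :=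
    Module.Invertible.congr (IsLocalizedModule.isBaseChange S A f).equiv.symm
  let e : A ≃ₐ[R] Localization S := IsLocalization.algEquiv S A (Localization S)
  let _ : Algebra A (Localization S) := e.toAlgHom.toRingHom.toAlgebra
  have htower : IsScalarTower R A (Localization S) :=
    IsScalarTower.of_algebraMap_eq (fun r => (e.commutes r).symm)
  have h2 : Module.Invertible (Localization S) (Localization S ⊗[A] (A ⊗[R] M)) := inferInstance
  have h3 : Module.Invertible (Localization S) (Localization S ⊗[R] M) :=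
    Module.Invertible.congr
      (AlgebraTensorModule.cancelBaseChange R A (Localization S) (Localization S) M)
  exact Module.Invertible.congr (LocalizedModule.isBaseChange S M).equiv

end LocalCriterion

/-! ### Part 2: the closure of a finite divisor of the first chart -/

section TwoChartClosed

variable {R : Type u} [CommRing R] (𝔹 : TwoChart R)

/-- The extension `I B₁₂` of an ideal of the first chart to the overlap. -/
def ideal₁₂ (I : Ideal 𝔹.B₁) : Ideal 𝔹.B₁₂ := I.map 𝔹.r₁.toRingHom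

/-- The ideal `𝔞₂ = r₂⁻¹(I B₁₂)` of the second chart: the ideal of the closure of `V(I)`. -/
def ideal₂ (I : Ideal 𝔹.B₁) : Ideal 𝔹.B₂ := (ideal₁₂ 𝔹 I).comap 𝔹.r₂.toRingHom

variable {𝔹}

lemma mem_ideal₂ {I : Ideal 𝔹.B₁} {b : 𝔹.B₂} : b ∈ ideal₂ 𝔹 I ↔ 𝔹.r₂ b ∈ ideal₁₂ 𝔹 I := Iff.rfl

lemma r₁_mem_ideal₁₂ {I : Ideal 𝔹.B₁} {a : 𝔹.B₁} (ha : a ∈ I) : 𝔹.r₁ a ∈ ideal₁₂ 𝔹 I :=
  Ideal.mem_map_of_mem 𝔹.r₁.toRingHom ha

variable (𝔹)

lemma r₂g_mul_r₁f : 𝔹.r₂ 𝔹.g * 𝔹.r₁ 𝔹.f = 1 := by rw [mul_comm]; exact 𝔹.fg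

/-- `𝔞₂ B₁₂ = I B₁₂`: the pair `(I, 𝔞₂)` is an ideal datum on the two-chart. -/
theorem map_ideal₂ (I : Ideal 𝔹.B₁) : (ideal₂ 𝔹 I).map 𝔹.r₂.toRingHom = ideal₁₂ 𝔹 I := by
  apply le_antisymm
  · exact Ideal.map_comap_le
  · intro y hy
    obtain ⟨a, n, rfl⟩ := 𝔹.surj₂ y
    have ha : a ∈ ideal₂ 𝔹 I := by
      rw [mem_ideal₂]
      have : 𝔹.r₂ a = (𝔹.r₂ a * 𝔹.r₁ 𝔹.f ^ n) * 𝔹.r₂ 𝔹.g ^ n := by
        rw [mul_assoc, ← mul_pow, 𝔹.fg, one_pow, mul_one]
      rw [this]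
      exact Ideal.mul_mem_right _ _ hy
    exact Ideal.mul_mem_right _ _ (Ideal.mem_map_of_mem 𝔹.r₂.toRingHom ha)

/-- Cayley-Hamilton: if `B₁ ⧸ I` is a finite `R`-module, a monic polynomial in `f` lies in `I`. -/
theorem exists_monic_aeval_mem (I : Ideal 𝔹.B₁) [Module.Finite R (𝔹.B₁ ⧸ I)] :
    ∃ χ : Polynomial R, χ.Monic ∧ Polynomial.aeval 𝔹.f χ ∈ I := by
  obtain ⟨χ, hχ, h0⟩ := LinearMap.exists_monic_and_aeval_eq_zero R
    (Algebra.lmul R (𝔹.B₁ ⧸ I) (Ideal.Quotient.mk I 𝔹.f))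
  refine ⟨χ, hχ, ?_⟩
  rw [Polynomial.aeval_algHom_apply] at h0
  have h1 : Polynomial.aeval (Ideal.Quotient.mk I 𝔹.f) χ = 0 := by
    have := congrArg (fun φ : Module.End R (𝔹.B₁ ⧸ I) => φ 1) h0
    simpa using this
  have h2 : Polynomial.aeval (Ideal.Quotient.mk I 𝔹.f) χ
      = Ideal.Quotient.mk I (Polynomial.aeval 𝔹.f χ) :=
    Polynomial.aeval_algHom_apply (Ideal.Quotient.mkₐ R I) 𝔹.f χ
  rw [h2] at h1
  exact Ideal.Quotient.eq_zero_iff_mem.mp h1

/-- Cayley-Hamilton with the degree: if `B₁ ⧸ I` is free of finite rank over `R`, the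
characteristic polynomial of `f`, of degree the rank, evaluated at `f` lies in `I`. -/
theorem exists_monic_natDegree_aeval_mem [Nontrivial R] (I : Ideal 𝔹.B₁)
    [Module.Free R (𝔹.B₁ ⧸ I)] [Module.Finite R (𝔹.B₁ ⧸ I)] :
    ∃ χ : Polynomial R, χ.Monic ∧ χ.natDegree = Module.finrank R (𝔹.B₁ ⧸ I) ∧
      Polynomial.aeval 𝔹.f χ ∈ I := by
  obtain ⟨χ, hχ, hdeg, h0⟩ : ∃ χ : Polynomial R, χ.Monic ∧
      χ.natDegree = Module.finrank R (𝔹.B₁ ⧸ I) ∧
      Polynomial.aeval (Algebra.lmul R (𝔹.B₁ ⧸ I) (Ideal.Quotient.mk I 𝔹.f)) χ = 0 :=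
    ⟨_, LinearMap.charpoly_monic _, LinearMap.charpoly_natDegree _,
      LinearMap.aeval_self_charpoly _⟩
  refine ⟨χ, hχ, hdeg, ?_⟩
  rw [Polynomial.aeval_algHom_apply] at h0
  have h1 : Polynomial.aeval (Ideal.Quotient.mk I 𝔹.f) χ = 0 := by
    have := congrArg (fun φ : Module.End R (𝔹.B₁ ⧸ I) => φ 1) h0
    simpa using this
  have h2 : Polynomial.aeval (Ideal.Quotient.mk I 𝔹.f) χ
      = Ideal.Quotient.mk I (Polynomial.aeval 𝔹.f χ) :=
    Polynomial.aeval_algHom_apply (Ideal.Quotient.mkₐ R I) 𝔹.f χ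
  rw [h2] at h1
  exact Ideal.Quotient.eq_zero_iff_mem.mp h1

/-- If `χ(f) ∈ I` then the reversed polynomial `u(g) = g^n χ(1/g)` lies in `𝔞₂`. -/
theorem aeval_reverse_mem_ideal₂ (I : Ideal 𝔹.B₁) {χ : Polynomial R}
    (hχ : Polynomial.aeval 𝔹.f χ ∈ I) : Polynomial.aeval 𝔹.g χ.reverse ∈ ideal₂ 𝔹 I := by
  rw [mem_ideal₂]
  let : Invertible (𝔹.r₁ 𝔹.f) := ⟨𝔹.r₂ 𝔹.g, r₂g_mul_r₁f 𝔹, 𝔹.fg⟩
  have h := Polynomial.eval₂_reverse_mul_pow (algebraMap R 𝔹.B₁₂) (𝔹.r₁ 𝔹.f) χ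
  have h1 : 𝔹.r₂ (Polynomial.aeval 𝔹.g χ.reverse)
      = Polynomial.eval₂ (algebraMap R 𝔹.B₁₂) (𝔹.r₂ 𝔹.g) χ.reverse := by
    rw [← Polynomial.aeval_algHom_apply, Polynomial.aeval_def]
  have h2 : 𝔹.r₁ (Polynomial.aeval 𝔹.f χ)
      = Polynomial.eval₂ (algebraMap R 𝔹.B₁₂) (𝔹.r₁ 𝔹.f) χ := by
    rw [← Polynomial.aeval_algHom_apply, Polynomial.aeval_def]
  have h3 : 𝔹.r₂ (Polynomial.aeval 𝔹.g χ.reverse)
      = 𝔹.r₁ (Polynomial.aeval 𝔹.f χ) * 𝔹.r₂ 𝔹.g ^ χ.natDegree := by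
    rw [h1, h2, ← h]
    change _ = Polynomial.eval₂ (algebraMap R 𝔹.B₁₂) (𝔹.r₂ 𝔹.g) χ.reverse *
      𝔹.r₁ 𝔹.f ^ χ.natDegree * 𝔹.r₂ 𝔹.g ^ χ.natDegree
    rw [mul_assoc, ← mul_pow, 𝔹.fg, one_pow, mul_one]
  rw [h3]
  exact Ideal.mul_mem_right _ _ (r₁_mem_ideal₁₂ hχ)

/-- The reversed polynomial of a monic polynomial is `≡ 1` modulo `g`. -/
theorem aeval_reverse_eq_one_add {χ : Polynomial R} (hχ : χ.Monic) :
    ∃ b : 𝔹.B₂, Polynomial.aeval 𝔹.g χ.reverse = 1 + 𝔹.g * b := by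
  refine ⟨Polynomial.aeval 𝔹.g χ.reverse.divX, ?_⟩
  have h := Polynomial.divX_mul_X_add χ.reverse
  rw [Polynomial.coeff_zero_reverse, hχ.leadingCoeff] at h
  conv_lhs => rw [← h]
  simp [mul_comm, add_comm]

/-- There is `u ∈ 𝔞₂` with `u ≡ 1` modulo `g`. -/
theorem exists_mem_ideal₂_eq_one_add (I : Ideal 𝔹.B₁) [Module.Finite R (𝔹.B₁ ⧸ I)] :
    ∃ u ∈ ideal₂ 𝔹 I, ∃ b : 𝔹.B₂, u = 1 + 𝔹.g * b := by
  obtain ⟨χ, hmonic, hχ⟩ := exists_monic_aeval_mem 𝔹 I
  exact ⟨_, aeval_reverse_mem_ideal₂ 𝔹 I hχ, aeval_reverse_eq_one_add 𝔹 hmonic⟩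

/-- `𝔞₂ + (g) = ⊤`: the closure of the divisor does not meet `V(g)`. -/
theorem ideal₂_sup_span_g (I : Ideal 𝔹.B₁) [Module.Finite R (𝔹.B₁ ⧸ I)] :
    ideal₂ 𝔹 I ⊔ Ideal.span {𝔹.g} = ⊤ := by
  obtain ⟨u, hu, b, hb⟩ := exists_mem_ideal₂_eq_one_add 𝔹 I
  rw [Ideal.eq_top_iff_one]
  have h1 : (1 : 𝔹.B₂) = u + 𝔹.g * (-b) := by rw [hb]; ring
  rw [h1]
  exact Submodule.add_mem_sup hu (Ideal.mul_mem_right _ _ (Ideal.mem_span_singleton_self _))

/-- `B₂ ⧸ 𝔞₂ ≃ B₁₂ ⧸ I B₁₂`: the divisor is contained in the first chart. -/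
theorem quotient_ideal₂_bijective (I : Ideal 𝔹.B₁) [Module.Finite R (𝔹.B₁ ⧸ I)] :
    Function.Bijective (Ideal.quotientMap (ideal₁₂ 𝔹 I) 𝔹.r₂.toRingHom
      (le_refl (ideal₂ 𝔹 I))) := by
  refine ⟨Ideal.quotientMap_injective' (le_refl _), ?_⟩
  obtain ⟨u, hu, b, hb⟩ := exists_mem_ideal₂_eq_one_add 𝔹 I
  intro y
  obtain ⟨y, rfl⟩ := Ideal.Quotient.mk_surjective y
  obtain ⟨a, n, rfl⟩ := 𝔹.surj₂ y
  refine ⟨Ideal.Quotient.mk _ (a * (-b) ^ n), ?_⟩
  change Ideal.Quotient.mk (ideal₁₂ 𝔹 I) (𝔹.r₂.toRingHom (a * (-b) ^ n)) = _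
  rw [Ideal.Quotient.eq]
  have hf : 𝔹.r₂ (-b) - 𝔹.r₁ 𝔹.f ∈ ideal₁₂ 𝔹 I := by
    have h1 : 𝔹.r₂ (-b) - 𝔹.r₁ 𝔹.f = -(𝔹.r₁ 𝔹.f * 𝔹.r₂ u) := by
      rw [hb, map_add, map_mul, map_one, map_neg, mul_add, ← mul_assoc, 𝔹.fg]
      ring
    rw [h1]
    exact neg_mem (Ideal.mul_mem_left _ _ (mem_ideal₂.mp hu))
  have hpow : 𝔹.r₂ (-b) ^ n - 𝔹.r₁ 𝔹.f ^ n ∈ ideal₁₂ 𝔹 I :=
    Ideal.mem_of_dvd _ (sub_dvd_pow_sub_pow _ _ n) hf
  have h2 : 𝔹.r₂.toRingHom (a * (-b) ^ n) - 𝔹.r₂ a * 𝔹.r₁ 𝔹.f ^ n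
      = 𝔹.r₂ a * (𝔹.r₂ (-b) ^ n - 𝔹.r₁ 𝔹.f ^ n) := by
    change 𝔹.r₂ (a * (-b) ^ n) - _ = _
    rw [map_mul, map_pow]; ring
  rw [h2]
  exact Ideal.mul_mem_left _ _ hpow

/-- `B₁₂` as a `B₁`-algebra through `r₁`. -/
@[reducible] def algebra₁ : Algebra 𝔹.B₁ 𝔹.B₁₂ := 𝔹.r₁.toRingHom.toAlgebra

/-- `B₁₂` as a `B₂`-algebra through `r₂`. -/
@[reducible] def algebra₂ : Algebra 𝔹.B₂ 𝔹.B₁₂ := 𝔹.r₂.toRingHom.toAlgebra

/-- `B₁₂ = B₁[1/f]`. -/
theorem isLocalization_away₁ : @IsLocalization.Away _ _ 𝔹.f 𝔹.B₁₂ _ (algebra₁ 𝔹) := by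
  let := algebra₁ 𝔹
  refine IsLocalization.Away.mk 𝔹.f ?_ ?_ ?_
  · exact IsUnit.of_mul_eq_one _ 𝔹.fg
  · intro y
    obtain ⟨a, n, rfl⟩ := 𝔹.surj₁ y
    refine ⟨n, a, ?_⟩
    change 𝔹.r₁ a * 𝔹.r₂ 𝔹.g ^ n * 𝔹.r₁ 𝔹.f ^ n = 𝔹.r₁ a
    rw [mul_assoc, ← mul_pow, r₂g_mul_r₁f, one_pow, mul_one]
  · intro a b hab
    have h : 𝔹.r₁ (a - b) = 0 := by
      rw [map_sub, sub_eq_zero]; exact hab
    obtain ⟨n, hn⟩ := 𝔹.ker₁ _ h
    exact ⟨n, by rw [mul_sub, sub_eq_zero] at hn; exact hn⟩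

/-- `B₁₂ = B₂[1/g]`. -/
theorem isLocalization_away₂ : @IsLocalization.Away _ _ 𝔹.g 𝔹.B₁₂ _ (algebra₂ 𝔹) := by
  let := algebra₂ 𝔹
  refine IsLocalization.Away.mk 𝔹.g ?_ ?_ ?_
  · exact IsUnit.of_mul_eq_one _ (r₂g_mul_r₁f 𝔹)
  · intro y
    obtain ⟨a, n, rfl⟩ := 𝔹.surj₂ y
    refine ⟨n, a, ?_⟩
    change 𝔹.r₂ a * 𝔹.r₁ 𝔹.f ^ n * 𝔹.r₂ 𝔹.g ^ n = 𝔹.r₂ a
    rw [mul_assoc, ← mul_pow, 𝔹.fg, one_pow, mul_one]
  · intro a b hab
    have h : 𝔹.r₂ (a - b) = 0 := by
      rw [map_sub, sub_eq_zero]; exact hab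
    obtain ⟨n, hn⟩ := 𝔹.ker₂ _ h
    exact ⟨n, by rw [mul_sub, sub_eq_zero] at hn; exact hn⟩

/-- The extension to the overlap of an invertible ideal of the first chart is invertible. -/
theorem invertible_ideal₁₂ (I : Ideal 𝔹.B₁) [Module.Invertible 𝔹.B₁ I] :
    Module.Invertible 𝔹.B₁₂ (ideal₁₂ 𝔹 I) := by
  let := algebra₁ 𝔹
  have := isLocalization_away₁ 𝔹
  have h : Module.Invertible 𝔹.B₁₂ (Submodule.localized' 𝔹.B₁₂ (Submonoid.powers 𝔹.f)
      (Algebra.linearMap 𝔹.B₁ 𝔹.B₁₂) I) :=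
    Module.Invertible.of_isLocalization (Submonoid.powers 𝔹.f)
      (Submodule.toLocalized' 𝔹.B₁₂ (Submonoid.powers 𝔹.f) (Algebra.linearMap 𝔹.B₁ 𝔹.B₁₂) I)
  have e : Submodule.localized' 𝔹.B₁₂ (Submonoid.powers 𝔹.f)
      (Algebra.linearMap 𝔹.B₁ 𝔹.B₁₂) I = ideal₁₂ 𝔹 I := by
    rw [Submodule.localized'_eq_span]; rfl
  exact Module.Invertible.congr (LinearEquiv.ofEq _ _ e)

/-- **(Closed)**: if `I` is an invertible ideal of the first chart with `B₁ ⧸ I` finite over the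
base, then the ideal `𝔞₂` of its closure in the second chart is an invertible `B₂`-module. -/
theorem invertible_ideal₂ (I : Ideal 𝔹.B₁) [Module.Finite R (𝔹.B₁ ⧸ I)]
    [Module.Invertible 𝔹.B₁ I] : Module.Invertible 𝔹.B₂ (ideal₂ 𝔹 I) := by
  obtain ⟨u, hu, b, hb⟩ := exists_mem_ideal₂_eq_one_add 𝔹 I
  have hab : Ideal.span ({𝔹.g, u} : Set 𝔹.B₂) = ⊤ := by
    rw [Ideal.eq_top_iff_one]
    have h1 : (1 : 𝔹.B₂) = (-b) * 𝔹.g + 1 * u := by rw [hb]; ring
    rw [h1]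
    exact add_mem (Ideal.mul_mem_left _ _ (Ideal.subset_span (by simp)))
      (Ideal.mul_mem_left _ _ (Ideal.subset_span (by simp)))
  refine invertible_of_cover₂ hab ?_ ?_
  · -- away from `g`: the localization is `I B₁₂`
    let := algebra₂ 𝔹
    have := isLocalization_away₂ 𝔹
    have e : Submodule.localized' 𝔹.B₁₂ (Submonoid.powers 𝔹.g)
        (Algebra.linearMap 𝔹.B₂ 𝔹.B₁₂) (ideal₂ 𝔹 I) = ideal₁₂ 𝔹 I := by
      rw [Submodule.localized'_eq_span]; exact map_ideal₂ 𝔹 I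
    have := invertible_ideal₁₂ 𝔹 I
    have : Module.Invertible 𝔹.B₁₂ (Submodule.localized' 𝔹.B₁₂ (Submonoid.powers 𝔹.g)
        (Algebra.linearMap 𝔹.B₂ 𝔹.B₁₂) (ideal₂ 𝔹 I)) :=
      Module.Invertible.congr (LinearEquiv.ofEq _ _ e.symm)
    exact invertible_localizedModule (Submonoid.powers 𝔹.g) 𝔹.B₁₂ _
      (Submodule.toLocalized' 𝔹.B₁₂ (Submonoid.powers 𝔹.g) (Algebra.linearMap 𝔹.B₂ 𝔹.B₁₂)
        (ideal₂ 𝔹 I))
  · -- away from `u ∈ 𝔞₂`: the localization is the unit ideal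
    have e : Submodule.localized' (Localization.Away u) (Submonoid.powers u)
        (Algebra.linearMap 𝔹.B₂ (Localization.Away u)) (ideal₂ 𝔹 I) = ⊤ := by
      rw [Submodule.localized'_eq_span]
      refine Ideal.eq_top_of_isUnit_mem _ (Submodule.subset_span ⟨u, hu, rfl⟩) ?_
      exact IsLocalization.Away.algebraMap_isUnit u
    have : Module.Invertible (Localization.Away u)
        (Submodule.localized' (Localization.Away u) (Submonoid.powers u)
          (Algebra.linearMap 𝔹.B₂ (Localization.Away u)) (ideal₂ 𝔹 I)) :=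
      Module.Invertible.congr
        ((LinearEquiv.ofEq _ _ e).trans Submodule.topEquiv).symm
    exact invertible_localizedModule (Submonoid.powers u) (Localization.Away u) _
      (Submodule.toLocalized' (Localization.Away u) (Submonoid.powers u)
        (Algebra.linearMap 𝔹.B₂ (Localization.Away u)) (ideal₂ 𝔹 I))

end TwoChartClosed

end Fermat.Agent.S25.ATLAS.DIV.GoodMem.H6251.Closed
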