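/-
S25 package ATLAS/DIV, leaf GoodMem (helper6251): the pair `(O(D), 1_D)` attached to an ideal
`I` of the first chart whose quotient is finite projective over the base.

* `idealGM 𝔹 I`  : the ideal sheaf `O(-D) = (I, r₂⁻¹(I B₁₂), I B₁₂)`;
* `divQ 𝔹 I h`   : its dual `O(D)`;  `divσ 𝔹 I h` : the canonical section `1_D`;
* `divσ_mem`, `zeroIdeal_divσ₁/₂`, `divσ_regular₁/₂`, `divσ_away`;
* on the curve chart `𝒞.chart R`: `idealGM_isLineBundle` ((Inv) + (Closed)).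
-/
import Fermat.Agent.S25.ATLAS.DIV.Defs
import Fermat.Agent.S25.ATLAS.DIV.GoodMem.H6251.Closed
import Fermat.Agent.S25.Lib.SubQuot
import Fermat.Agent.S25.Lib.Tensor.Iso
import Fermat.Agent.S25.Lib.Inv.Curve

set_option autoImplicit false
set_option linter.style.haveILetI false
set_option linter.unusedSectionVars false

universe u

namespace Fermat.Agent.S25.ATLAS.DIV.GoodMem.H6251

open Fermat.Agent.S25 GluedModule H2890

open scoped TensorProduct

section general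

variable {R : Type u} [CommRing R] (𝔹 : TwoChart R) (I : Ideal 𝔹.B₁)

/-- The ideal of the closure of `V(I)` in the second chart. -/
def ideal₂ : Ideal 𝔹.B₂ := (I.map 𝔹.r₁).comap 𝔹.r₂

theorem ideal₂_eq_closed : ideal₂ 𝔹 I = Closed.ideal₂ 𝔹 I := rfl

/-- The ideal sheaf `O(-D)` of the closure of `V(I)`. -/
@[reducible] noncomputable def idealGM : GluedModule 𝔹 := (Sub.ofIdeal₁ I).toGlued

/-- The line bundle `O(D)`. -/
@[reducible] noncomputable def divQ (h : (idealGM 𝔹 I).IsLineBundle) : GluedModule 𝔹 :=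
  Lib.Tensor.lbDual (idealGM 𝔹 I) h

theorem divQ_isLineBundle (h : (idealGM 𝔹 I).IsLineBundle) : (divQ 𝔹 I h).IsLineBundle :=
  Lib.Tensor.lbDual_isLineBundle h

/-- The canonical section `1_D` of `O(D)`. -/
noncomputable def divσ (h : (idealGM 𝔹 I).IsLineBundle) : (divQ 𝔹 I h).N₁ × (divQ 𝔹 I h).N₂ :=
  ((Sub.ofIdeal₁ I).M₁.subtype, (Sub.ofIdeal₁ I).M₂.subtype)

theorem divσ_mem (h : (idealGM 𝔹 I).IsLineBundle) : divσ 𝔹 I h ∈ (divQ 𝔹 I h).H0 := by
  rw [GluedModule.mem_H0]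
  change Lib.Tensor.homι₁ (idealGM 𝔹 I) (Lib.Tensor.unit 𝔹) (Sub.ofIdeal₁ I).M₁.subtype =
    Lib.Tensor.homι₂ (idealGM 𝔹 I) (Lib.Tensor.unit 𝔹) (Sub.ofIdeal₁ I).M₂.subtype
  have h1 : Lib.Tensor.homι₁ (idealGM 𝔹 I) (Lib.Tensor.unit 𝔹) (Sub.ofIdeal₁ I).M₁.subtype =
      (Sub.ofIdeal₁ I).M₁₂.subtype := by
    refine Lib.Tensor.linearMap₁₂_ext₁ (idealGM 𝔹 I) _ _ fun n => ?_
    rw [Lib.Tensor.homι₁_apply]
    rfl
  have h2 : Lib.Tensor.homι₂ (idealGM 𝔹 I) (Lib.Tensor.unit 𝔹) (Sub.ofIdeal₁ I).M₂.subtype =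
      (Sub.ofIdeal₁ I).M₁₂.subtype := by
    refine Lib.Tensor.linearMap₁₂_ext₂ (idealGM 𝔹 I) _ _ fun n => ?_
    rw [Lib.Tensor.homι₂_apply]
    rfl
  rw [h1, h2]

end general

/-! ### Single-ring lemmas on zero ideals of sections of invertible modules -/

section single

variable {B : Type*} [CommRing B] {M : Type*} [AddCommGroup M] [Module B M]
  [Module.Invertible B M]

/-- For an invertible module, `K • ⊤ = ⊤` forces `K = ⊤`. -/
theorem ideal_eq_top_of_smul_top_eq_top (K : Ideal B)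
    (h : K • (⊤ : Submodule B M) = ⊤) : K = ⊤ := by
  obtain ⟨S, hS⟩ := exists_finset_sum_dual_apply_eq_one B M
  rw [Ideal.eq_top_iff_one, ← hS]
  refine Ideal.sum_mem _ fun i _ => ?_
  have hi : i.2 ∈ K • (⊤ : Submodule B M) := by rw [h]; exact Submodule.mem_top
  refine Submodule.smul_induction_on hi ?_ ?_
  · intro a ha n _
    rw [map_smul, smul_eq_mul]
    exact Ideal.mul_mem_right _ _ ha
  · intro x y hx hy
    rw [map_add]
    exact Ideal.add_mem _ hx hy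

/-- `B s + J M = M` iff `𝔞(s) + J = B`. -/
theorem span_sup_smul_top_eq_top_iff (s : M) (J : Ideal B) :
    Submodule.span B {s} ⊔ J • (⊤ : Submodule B M) = ⊤ ↔ zeroIdeal B s ⊔ J = ⊤ := by
  rw [← zeroIdeal_smul_top s, ← Submodule.sup_smul]
  constructor
  · exact ideal_eq_top_of_smul_top_eq_top _
  · intro h
    rw [h, Submodule.top_smul]

end single

section general2

variable {R : Type u} [CommRing R] (𝔹 : TwoChart R) (I : Ideal 𝔹.B₁)
  (h : (idealGM 𝔹 I).IsLineBundle)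

theorem zeroIdeal_divσ₁ : zeroIdeal 𝔹.B₁ (divσ 𝔹 I h).1 = I := by
  haveI : Module.Invertible 𝔹.B₁ I := h.inv₁
  exact zeroIdeal_canonicalSection I

theorem zeroIdeal_divσ₂ : zeroIdeal 𝔹.B₂ (divσ 𝔹 I h).2 = ideal₂ 𝔹 I := by
  haveI : Module.Invertible 𝔹.B₂ (ideal₂ 𝔹 I) := h.inv₂
  exact zeroIdeal_canonicalSection (ideal₂ 𝔹 I)

theorem divσ_regular₁ : Function.Injective fun b : 𝔹.B₁ => b • (divσ 𝔹 I h).1 := by
  haveI : Module.Invertible 𝔹.B₁ I := h.inv₁
  exact smul_injective_canonicalSection I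

theorem divσ_regular₂ : Function.Injective fun b : 𝔹.B₂ => b • (divσ 𝔹 I h).2 := by
  haveI : Module.Invertible 𝔹.B₂ (ideal₂ 𝔹 I) := h.inv₂
  exact smul_injective_canonicalSection (ideal₂ 𝔹 I)

/-- If the closure of the divisor does not meet `V(g)`, the canonical section generates
`O(D)` on the second chart modulo `g`. -/
theorem divσ_away (hg : ideal₂ 𝔹 I ⊔ Ideal.span {𝔹.g} = ⊤) :
    Submodule.span 𝔹.B₂ {(divσ 𝔹 I h).2} ⊔
      (Ideal.span {𝔹.g}) • (⊤ : Submodule 𝔹.B₂ (divQ 𝔹 I h).N₂) = ⊤ := by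
  haveI : Module.Invertible 𝔹.B₂ (divQ 𝔹 I h).N₂ := (divQ_isLineBundle 𝔹 I h).inv₂
  rw [span_sup_smul_top_eq_top_iff, zeroIdeal_divσ₂]
  exact hg

end general2

/-! ### The curve chart -/

section curve

variable {k : Type u} [Field k] [IsAlgClosed k] (𝒞 : CurveData k)
  (R : Type u) [CommRing R] [Algebra k R] (I : Ideal (𝒞.chart R).B₁)
  [Module.Finite R ((𝒞.chart R).B₁ ⧸ I)] [Module.Projective R ((𝒞.chart R).B₁ ⧸ I)]

/-- (Inv) + (Closed): the ideal sheaf of a divisor of the first chart which is finite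
projective over the base is a line bundle. -/
theorem idealGM_isLineBundle : (idealGM (𝒞.chart R) I).IsLineBundle := by
  haveI h1 : Module.Invertible (𝒞.chart R).B₁ I := Lib.Inv.invertible_ideal₁ 𝒞 R I
  exact ⟨h1, Closed.invertible_ideal₂ (𝒞.chart R) I⟩

theorem ideal₂_sup_span_g : ideal₂ (𝒞.chart R) I ⊔ Ideal.span {(𝒞.chart R).g} = ⊤ :=
  Closed.ideal₂_sup_span_g (𝒞.chart R) I

/-- `(O(D), 1_D)` for a divisor `D = V(I)` of the first chart, finite projective over the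
base: a line bundle with a global section, regular on both charts, generating the second
chart modulo `g`, with zero ideal `I` on the first chart. -/
theorem exists_div_section :
    ∃ (Q : GluedModule (𝒞.chart R)) (σ : Q.N₁ × Q.N₂),
      Q.IsLineBundle ∧ σ ∈ Q.H0 ∧
      Submodule.span (𝒞.chart R).B₂ {σ.2} ⊔
        (Ideal.span {(𝒞.chart R).g}) • (⊤ : Submodule (𝒞.chart R).B₂ Q.N₂) = ⊤ ∧
      zeroIdeal₁ 𝒞 Q σ = I ∧ IsRegSec Q σ :=
  have hlb : (idealGM (𝒞.chart R) I).IsLineBundle := idealGM_isLineBundle 𝒞 R I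
  ⟨divQ (𝒞.chart R) I hlb, divσ (𝒞.chart R) I hlb, divQ_isLineBundle _ _ hlb,
    divσ_mem _ _ hlb, divσ_away _ _ hlb (ideal₂_sup_span_g 𝒞 R I), zeroIdeal_divσ₁ _ _ hlb,
    divσ_regular₁ _ _ hlb, divσ_regular₂ _ _ hlb⟩

end curve

end Fermat.Agent.S25.ATLAS.DIV.GoodMem.H6251
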